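import Fermat.Agent.S15.Abs.Defs
import Fermat.Agent.GR.S.K1
import Fermat.Agent.GR.I.CharTheoryMk

/-!
# S15-ATL: definitions

`J = JZero N` (`N` = the level, a prime `p` in S15), `Tq N q = ` the Prelude Hecke operator on `J`.
`kd N` = the Kummer data of project GR (`J[n] = Kummer classes = Λ / n Λ`).
-/

set_option autoImplicit false

noncomputable section

open AlgebraicCurve ModularCurve Fermat.Agent.S17.FF

namespace Fermat.Agent.S15.Atl

open Fermat.Agent.GR Fermat.Agent.GR.S Fermat.Agent.GR.H Fermat.Agent.GR.I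

/-- the function field of `X₀(N)` over `ℚ̄`. -/
local notation "𝔽" => modularFunctionFieldBar

variable (N : ℕ) [NeZero N]

/-- the Hecke operator `T_q` on `J₀(N)(ℚ̄)`. -/
abbrev Tq {q : ℕ} (hq : q.Prime) : Module.End ℤ (JZero N) := heckeOperatorBar N ⟨q, hq⟩

/-- a fixed embedding `ℚ̄ → ℂ`. -/
def iotaC : Qb →+* ℂ := (IsAlgClosed.lift (R := ℚ) (S := Qb) (M := ℂ)).toRingHom

/-- the Kummer data of level `N` (project GR). -/
def kd : KummerData N := (charTheory N).toKummerData iotaC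

/-- `u` is a Kummer function of exponent `n` of the class `x`: `x = [D]`, `div u = n D`. -/
def IsKumOf (n : ℕ) (x : JZero N) (u : LaurentSeries Qb) : Prop :=
  ∃ (hu : u ∈ 𝔽 N) (D : Divisor.degZero (K := Qb) (F := 𝔽 N)), u ≠ 0 ∧
    divf (K := Qb) (⟨u, hu⟩ : 𝔽 N) = n • (D : Divisor Qb (𝔽 N)) ∧ Pic0.mk D = x

/-- `a : Λ` lifts the class `x ∈ J[n]` under `J[n] = Λ / n Λ`. -/
def IsLift (n : ℕ) (x : JZero N) (a : (kd N).Λ) : Prop :=
  ∃ u, IsKumOf N n x u ∧ (kd N).theta n u = (kd N).red n a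

/-- `x` is a torsion element. -/
def IsTors {J : Type*} [AddCommGroup J] (x : J) : Prop := ∃ n : ℕ, 0 < n ∧ n • x = 0

/-- the subalgebra of `End J` generated by the `T_q`, `q ∤ N`. -/
def Hk : Subalgebra ℤ (Module.End ℤ (JZero N)) :=
  Algebra.adjoin ℤ {T | ∃ (q : ℕ) (hq : q.Prime), ¬ q ∣ N ∧ T = Tq N hq}

/-- A family of "kernels of reduction" (e.g. `GR.S.K1`). -/
structure K1Fam (K : ValuationSubring Qb → AddSubgroup (JZero N)) : Prop where
  inert : ∀ q : ℕ, q.Prime → ¬ q ∣ N → ∀ A : ValuationSubring Qb, A.LiesOverPrime q →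
    ∀ σ ∈ A.inertiaSubgroupIn ℚ, ∀ z : JZero N, σ • z - z ∈ K A
  es : ∀ (q : ℕ) (hq : q.Prime), ¬ q ∣ N → ∀ A : ValuationSubring Qb, A.LiesOverPrime q →
    ∀ φ : GQ, A.IsFrobeniusAt φ q → ∀ x : JZero N,
      φ • φ • x - Tq N hq (φ • x) + q • x ∈ K A
  tor : ∀ q : ℕ, q.Prime → ¬ q ∣ N → ∀ A : ValuationSubring Qb, A.LiesOverPrime q →
    ∀ m : ℕ, ¬ q ∣ m → ∀ x ∈ K A, m • x = 0 → x = 0

variable {N}
variable (K : ValuationSubring Qb → AddSubgroup (JZero N))

/-- the largest subgroup of `K A` stable under the decomposition group. -/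
def J1D (A : ValuationSubring Qb) : AddSubgroup (JZero N) where
  carrier := {x | ∀ δ ∈ A.decompositionSubgroup ℚ, δ • x ∈ K A}
  zero_mem' := fun δ _ => by rw [smul_zero]; exact (K A).zero_mem
  add_mem' := fun {a b} ha hb δ hδ => by rw [smul_add]; exact (K A).add_mem (ha δ hδ) (hb δ hδ)
  neg_mem' := fun {a} ha δ hδ => by rw [smul_neg]; exact (K A).neg_mem (ha δ hδ)

/-- the largest subgroup of `K A` stable under the decomposition group and the Hecke operators. -/
def J1H (A : ValuationSubring Qb) : AddSubgroup (JZero N) where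
  carrier := {x | ∀ δ ∈ A.decompositionSubgroup ℚ, ∀ T ∈ Hk N, T (δ • x) ∈ K A}
  zero_mem' := fun δ _ T _ => by rw [smul_zero, map_zero]; exact (K A).zero_mem
  add_mem' := fun {a b} ha hb δ hδ T hT => by
    rw [smul_add, map_add]; exact (K A).add_mem (ha δ hδ T hT) (hb δ hδ T hT)
  neg_mem' := fun {a} ha δ hδ T hT => by
    rw [smul_neg, map_neg]; exact (K A).neg_mem (ha δ hδ T hT)

open Classical in
/-- THE kernel of reduction of the raw data (`ℓ` = the descent prime). -/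
def J1 (ℓ : ℕ) (A : ValuationSubring Qb) : AddSubgroup (JZero N) :=
  if A.LiesOverPrime ℓ then J1H K A else J1D K A

theorem mem_J1D {A : ValuationSubring Qb} {x : JZero N} :
    x ∈ J1D K A ↔ ∀ δ ∈ A.decompositionSubgroup ℚ, δ • x ∈ K A := Iff.rfl

theorem mem_J1H {A : ValuationSubring Qb} {x : JZero N} :
    x ∈ J1H K A ↔ ∀ δ ∈ A.decompositionSubgroup ℚ, ∀ T ∈ Hk N, T (δ • x) ∈ K A := Iff.rfl

theorem J1_of_liesOver {ℓ : ℕ} {A : ValuationSubring Qb} (h : A.LiesOverPrime ℓ) :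
    J1 K ℓ A = J1H K A := if_pos h

theorem J1_of_not_liesOver {ℓ : ℕ} {A : ValuationSubring Qb} (h : ¬ A.LiesOverPrime ℓ) :
    J1 K ℓ A = J1D K A := if_neg h

end Fermat.Agent.S15.Atl
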