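import Mathlib

/-!
# S15-ATL: a non zero divisor of a finite `ℤ`-algebra divides a nonzero integer (Mathlib only)

(variant of `S15/NE/Alg.lean` of helper58, with a polynomial cofactor)
-/

set_option autoImplicit false

open Polynomial

namespace Fermat.Agent.S15.Atl

theorem NE1_aux {T : Type*} [CommRing T] (t : T) (ht : ∀ x : T, t * x = 0 → x = 0) (n : ℕ) :
    ∀ P : ℤ[X], P ≠ 0 → P.natDegree ≤ n → aeval t P = 0 →
      ∃ (B : ℤ[X]) (m : ℤ), m ≠ 0 ∧ t * aeval t B = (m : T) := by
  induction n with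
  | zero =>
    intro P hP hdeg h0
    rw [eq_C_of_natDegree_le_zero hdeg] at h0 hP
    refine ⟨0, P.coeff 0, fun h => hP (by rw [h, C_0]), ?_⟩
    rw [aeval_C] at h0
    rw [map_zero, mul_zero]
    simpa using h0.symm
  | succ n ih =>
    intro P hP hdeg h0
    have hdec : aeval t P.divX * t + ((P.coeff 0 : ℤ) : T) = 0 := by
      have h1 : aeval t (P.divX * X + C (P.coeff 0)) = 0 := by rw [divX_mul_X_add, h0]
      simpa using h1
    by_cases hc : P.coeff 0 = 0
    · rw [hc, Int.cast_zero, add_zero, mul_comm] at hdec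
      have h1 := ht _ hdec
      refine ih P.divX ?_ ?_ h1
      · intro h2
        apply hP
        rw [← divX_mul_X_add P, h2, hc]
        simp
      · rw [natDegree_divX_eq_natDegree_tsub_one]
        omega
    · refine ⟨- P.divX, P.coeff 0, hc, ?_⟩
      rw [map_neg]
      linear_combination -hdec

/-- `𝕋` a commutative ring, finite as a `ℤ`-module, `t : 𝕋` not a zero divisor.
Then `t` divides a nonzero integer, with a cofactor which is a polynomial in `t`. -/
theorem exists_mul_eq_int {𝕋 : Type*} [CommRing 𝕋] [Module.Finite ℤ 𝕋] (t : 𝕋)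
    (ht : ∀ s : 𝕋, t * s = 0 → s = 0) :
    ∃ (B : ℤ[X]) (m : ℤ), m ≠ 0 ∧ t * aeval t B = (m : 𝕋) := by
  obtain ⟨P, hP, h0⟩ := Algebra.IsIntegral.isIntegral (R := ℤ) t
  exact NE1_aux t ht P.natDegree P hP.ne_zero le_rfl (by rwa [Polynomial.aeval_def])

end Fermat.Agent.S15.Atl
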