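import Fermat.Agent.S15.Atl.Defs
import Fermat.Agent.S15.Atl.NE1
import Fermat.Agent.S22

/-!
# S15-ATL: (NE), algebraic half, in the Hecke algebra of cusp forms
-/

set_option autoImplicit false

noncomputable section

open AlgebraicCurve ModularCurve Polynomial

namespace Fermat.Agent.S15.Atl

open Fermat.Agent.GR Fermat.Agent.GR.S Fermat.Agent.GR.H Fermat.Agent.GR.I

/-- THE ANALYTIC INPUT (module S15-NE): `± (1 + q)` is not an eigenvalue of `T_q` on `S₂(Γ₀(N))`. -/
def NEAt (N : ℕ) [NeZero N] (q : ℕ) : Prop :=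
  ∀ (hq : q.Prime) (hqN : ¬ q ∣ N) (c : ℤ), c = 1 + q ∨ c = -(1 + q) →
    ∀ f : CuspForm (CongruenceSubgroup.Gamma0 N) 2,
      CuspForm.heckeTLin 2 hq hqN f = (c : ℂ) • f → f = 0

variable {N : ℕ} [NeZero N]

/-- PROOF. `t := T_q - c` in `HeckeFull N` (finite over `ℤ`: `S22.result N 2 ∅`).  Not a zero divisor:
if `t * s = 0` then for every cusp form `f`: `(T_q - c) (s f) = 0` (elements of `HeckeFull N` are
endomorphisms of the space of cusp forms: `Subtype.ext`, `LinearMap.ext`, `heckeAlgebra.coe_T`; the integer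
`c` acts as `(c : ℂ) • `), so `s f = 0` by `h`.  `exists_mul_eq_int` gives `B₀`; put
`B := B₀.comp (X - C c)` (`aeval_comp`). -/
theorem exists_poly {q : ℕ} (h : NEAt N q) (hq : q.Prime) (hqN : ¬ q ∣ N) (c : ℤ)
    (hc : c = 1 + q ∨ c = -(1 + q)) :
    ∃ (B : ℤ[X]) (m : ℤ), m ≠ 0 ∧
      aeval (HeckeFull.T hq hqN : HeckeFull N) ((X - C c) * B - C m) = 0 := by
  have hfin : Module.Finite ℤ (HeckeFull N) := Fermat.Agent.S22.result N 2 ∅
  have ht : ∀ s : HeckeFull N,
      ((HeckeFull.T hq hqN : HeckeFull N) - (c : HeckeFull N)) * s = 0 → s = 0 := by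
    intro s hs
    apply Subtype.ext
    apply LinearMap.ext
    intro f
    have h1 : ((((HeckeFull.T hq hqN : HeckeFull N) - (c : HeckeFull N)) * s : HeckeFull N) :
        Module.End ℂ (CuspForm (CongruenceSubgroup.Gamma0 N) 2)) f = 0 := by
      rw [hs]; rfl
    have h2 : ((((HeckeFull.T hq hqN : HeckeFull N) - (c : HeckeFull N)) * s : HeckeFull N) :
        Module.End ℂ (CuspForm (CongruenceSubgroup.Gamma0 N) 2)) f =
        CuspForm.heckeTLin 2 hq hqN (s.1 f) - (c : ℂ) • (s.1 f) := by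
      have e : ((((HeckeFull.T hq hqN : HeckeFull N) - (c : HeckeFull N)) * s : HeckeFull N) :
          Module.End ℂ (CuspForm (CongruenceSubgroup.Gamma0 N) 2)) =
          (CuspForm.heckeTLin 2 hq hqN -
            (c : Module.End ℂ (CuspForm (CongruenceSubgroup.Gamma0 N) 2))) * s.1 := by
        push_cast
        rfl
      rw [e, Module.End.mul_apply, LinearMap.sub_apply]
      congr 1
      rw [Module.End.intCast_apply]
      rw [← Int.cast_smul_eq_zsmul ℂ]
    exact h hq hqN c hc (s.1 f) (sub_eq_zero.1 (h2 ▸ h1))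
  obtain ⟨B₀, m, hm, hB⟩ := exists_mul_eq_int _ ht
  refine ⟨B₀.comp (X - C c), m, hm, ?_⟩
  rw [map_sub, map_mul, map_sub, aeval_X, aeval_C, aeval_C, aeval_comp, map_sub, aeval_X, aeval_C]
  have e1 : algebraMap ℤ (HeckeFull N) c = (c : HeckeFull N) := rfl
  have e2 : algebraMap ℤ (HeckeFull N) m = (m : HeckeFull N) := rfl
  rw [e1, e2, hB, sub_self]

end Fermat.Agent.S15.Atl
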