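import Fermat.Agent.S15.Atl.Defs

/-!
# S15-ATL: Kummer functions of torsion classes, 2
-/

set_option autoImplicit false

noncomputable section

open AlgebraicCurve ModularCurve Fermat.Agent.S17.FF

namespace Fermat.Agent.S15.Atl

open Fermat.Agent.GR Fermat.Agent.GR.S Fermat.Agent.GR.H Fermat.Agent.GR.I

local notation "𝔽" => modularFunctionFieldBar

variable {N : ℕ} [NeZero N] {n : ℕ} {x y x' : JZero N} {u v u' : LaurentSeries Qb}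


/-- PROOF. `u' = u z ^ n`, so `n • D' = n • D + n • divf z` (`divf_mul`, `divf_pow'`), divisors are
torsion free, `D' = D + divf z`, same class. -/
theorem IsKumOf.eq_of_kummerEquiv (hn : 0 < n) (h : IsKumOf N n x u) (h' : IsKumOf N n x' u')
    (he : KummerEquiv N n u u') : x = x' := by
  obtain ⟨hu, D, hu0, hD, rfl⟩ := h
  obtain ⟨hu', D', hu0', hD', rfl⟩ := h'
  obtain ⟨z, hz, hz0, e⟩ := he
  have hz' : z ∈ 𝔽 N := by rw [bar_eq_FF]; exact hz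
  have e' : (⟨u', hu'⟩ : 𝔽 N) = ⟨u, hu⟩ * (⟨z, hz'⟩ : 𝔽 N) ^ n := Subtype.ext e
  have hu1 : (⟨u, hu⟩ : 𝔽 N) ≠ 0 := fun h => hu0 (congrArg Subtype.val h)
  have hz1 : (⟨z, hz'⟩ : 𝔽 N) ≠ 0 := fun h => hz0 (congrArg Subtype.val h)
  rw [e', divf_mul hu1 (pow_ne_zero n hz1), hD, divf_pow'] at hD'
  have key : (D' : Divisor Qb (𝔽 N)) = D + divf (K := Qb) (⟨z, hz'⟩ : 𝔽 N) := by
    ext v
    have h1 := DFunLike.congr_fun hD' v
    simp only [Finsupp.add_apply, Finsupp.smul_apply, nsmul_eq_mul] at h1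
    rw [Finsupp.add_apply]
    have hn' : (n : ℤ) ≠ 0 := by exact_mod_cast hn.ne'
    apply mul_left_cancel₀ hn'
    rw [mul_add]
    exact h1.symm
  refine (QuotientAddGroup.eq).mpr ?_
  show ((-D + D' : Divisor.degZero (K := Qb) (F := 𝔽 N)) : Divisor Qb (𝔽 N)) ∈
    Divisor.principal (K := Qb) (F := 𝔽 N)
  refine ⟨⟨z, hz'⟩, hz1, fun v => ?_⟩
  rw [AddSubgroup.coe_add, AddSubgroup.coe_neg, key, neg_add_cancel_left, divf_apply]

theorem IsKumOf.mul (h : IsKumOf N n x u) (h' : IsKumOf N n y v) : IsKumOf N n (x + y) (u * v) := by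
  obtain ⟨hu, D, hu0, hD, rfl⟩ := h
  obtain ⟨hv, D', hv0, hD', rfl⟩ := h'
  have hu1 : (⟨u, hu⟩ : 𝔽 N) ≠ 0 := fun h => hu0 (congrArg Subtype.val h)
  have hv1 : (⟨v, hv⟩ : 𝔽 N) ≠ 0 := fun h => hv0 (congrArg Subtype.val h)
  refine ⟨mul_mem hu hv, D + D', mul_ne_zero hu0 hv0, ?_, rfl⟩
  have e : (⟨u * v, mul_mem hu hv⟩ : 𝔽 N) = ⟨u, hu⟩ * ⟨v, hv⟩ := rfl
  rw [e, divf_mul hu1 hv1, hD, hD', AddSubgroup.coe_add, smul_add]

theorem isKumOf_zero : IsKumOf N n (0 : JZero N) 1 := by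
  refine ⟨one_mem _, 0, one_ne_zero, ?_, rfl⟩
  have e : (⟨1, one_mem _⟩ : 𝔽 N) = 1 := rfl
  rw [e, AddSubgroup.coe_zero, smul_zero]
  ext v
  rw [divf_apply, Place.ord_one, Finsupp.zero_apply]

theorem IsKumOf.inv (h : IsKumOf N n x u) : IsKumOf N n (-x) u⁻¹ := by
  obtain ⟨hu, D, hu0, hD, rfl⟩ := h
  refine ⟨inv_mem hu, -D, inv_ne_zero hu0, ?_, rfl⟩
  have e : (⟨u⁻¹, inv_mem hu⟩ : 𝔽 N) = (⟨u, hu⟩ : 𝔽 N)⁻¹ := rfl
  rw [e, divf_inv, hD, AddSubgroup.coe_neg, smul_neg]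

end Fermat.Agent.S15.Atl
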