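import Mathlib

/-!
# S15-ATL: Dickson polynomials: `τ^j + q^j τ^{-j}` is a polynomial in `τ + q τ⁻¹` (Mathlib only)
-/

set_option autoImplicit false

open Polynomial

namespace Fermat.Agent.S15.Atl

/-- Dickson polynomials (Mathlib only).  PROOF. two-step induction on `j`
(`Polynomial.dickson_zero`, `dickson_one`, `dickson_add_two`; `3 - 1 = 2` in `dickson_zero`):
`T (S_{j+1} x) = S_{j+2} x + q S_j x` for `S_j x = τ^j x + q^j τ^{-j} x`, because `S_{j+1} x` is again
killed by `n`. -/
theorem dickson_apply {E : Type*} [AddCommGroup E] (n : ℕ) (τ τi T : Module.End ℤ E) (q : ℤ)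
    (h1 : τ * τi = 1) (h2 : τi * τ = 1)
    (hT : ∀ x : E, n • x = 0 → T x = τ x + q • τi x) (j : ℕ) (x : E) (hx : n • x = 0) :
    (τ ^ j) x + q ^ j • (τi ^ j) x = aeval T (dickson 1 q j) x := by
  have key : ∀ j : ℕ, ((τ ^ j) x + q ^ j • (τi ^ j) x = aeval T (dickson 1 q j) x) ∧
      ((τ ^ (j + 1)) x + q ^ (j + 1) • (τi ^ (j + 1)) x = aeval T (dickson 1 q (j + 1)) x) := by
    intro j
    induction j with
    | zero =>
      constructor
      · rw [dickson_zero, pow_zero, pow_zero, pow_zero, one_smul]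
        have : ((3 : ℤ[X]) - ((1 : ℕ) : ℤ[X])) = C (2 : ℤ) := by
          rw [Nat.cast_one]
          have : (C (2 : ℤ) : ℤ[X]) = 2 := by simp
          rw [this]; norm_num
        rw [this, aeval_C]
        show x + x = (algebraMap ℤ (Module.End ℤ E) 2) x
        rw [Module.algebraMap_end_apply, two_smul]
      · rw [zero_add, dickson_one, aeval_X, pow_one, pow_one, pow_one, hT x hx]
    | succ j ih =>
      refine ⟨ih.2, ?_⟩
      have e1 : ∀ y : E, τ ((τi ^ (j + 1)) y) = (τi ^ j) y := by
        intro y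
        have : τ * τi ^ (j + 1) = τi ^ j := by rw [pow_succ', ← mul_assoc, h1, one_mul]
        rw [← this]; rfl
      have e2 : ∀ y : E, τi ((τ ^ (j + 1)) y) = (τ ^ j) y := by
        intro y
        have : τi * τ ^ (j + 1) = τ ^ j := by rw [pow_succ', ← mul_assoc, h2, one_mul]
        rw [← this]; rfl
      have e3 : ∀ y : E, τ ((τ ^ (j + 1)) y) = (τ ^ (j + 1 + 1)) y := by
        intro y
        rw [pow_succ' τ (j + 1)]; rfl
      have e4 : ∀ y : E, τi ((τi ^ (j + 1)) y) = (τi ^ (j + 1 + 1)) y := by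
        intro y
        rw [pow_succ' τi (j + 1)]; rfl
      have hk : n • ((τ ^ (j + 1)) x + q ^ (j + 1) • (τi ^ (j + 1)) x) = 0 := by
        rw [smul_add, smul_comm n (q ^ (j + 1)), ← map_nsmul, ← map_nsmul, hx, map_zero, map_zero,
          smul_zero, add_zero]
      rw [dickson_add_two, map_sub, map_mul, map_mul, aeval_X, aeval_C, LinearMap.sub_apply,
        Module.End.mul_apply, Module.End.mul_apply, ← ih.1, ← ih.2, hT _ hk,
        Module.algebraMap_end_apply, map_add, map_add, map_zsmul, map_zsmul, e1, e2, e3, e4]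
      rw [smul_add, smul_add, smul_smul, smul_smul]
      have p1 : q * q ^ (j + 1) = q ^ (j + 1 + 1) := by ring
      have p2 : q * q ^ j = q ^ (j + 1) := by ring
      rw [p1, p2]
      abel
  exact (key j).1

end Fermat.Agent.S15.Atl
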