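import Fermat.Agent.S15.Atl.Defs
import Fermat.Agent.GR.G.Main
import Fermat.Agent.S19.A.Tors

/-!
# S15-ATL: an open normal subgroup of `G_ℚ` acting trivially on `J[n]` and `μ_n`
-/

set_option autoImplicit false

noncomputable section

open AlgebraicCurve ModularCurve

namespace Fermat.Agent.S15.Atl

variable (N : ℕ) [NeZero N]

/-- PROOF. `S19.finLevel_tors N n` gives a finite `L` fixing `J[n]`; adjoin a primitive `n`-th root of
unity and pass to the normal closure `L'` (finite, Galois); `U := L'.fixingSubgroup` is open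
(`InfiniteGalois.isOpen_iff_finite` / `IntermediateField.fixingSubgroup_isOpen`) and normal
(`InfiniteGalois.normal_iff_isGalois`), cf. the proof of `GR.G.exists_frobenius_pow_mem_aux`. -/
theorem exists_level (n : ℕ) (hn : 0 < n) : ∃ U : Subgroup GQ, U.Normal ∧ IsOpen (U : Set GQ) ∧
    (∀ σ ∈ U, ∀ x : JZero N, n • x = 0 → σ • x = x) ∧
    (∀ σ ∈ U, ∀ ζ : Qb, ζ ^ n = 1 → σ ζ = ζ) := by
  classical
  haveI : NeZero n := ⟨hn.ne'⟩
  have hcl : IsAlgClosure ℚ Qb := ⟨inferInstance, AlgebraicClosure.isAlgebraic ℚ⟩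
  have halg : Algebra.IsAlgebraic ℚ Qb := hcl.isAlgebraic
  obtain ⟨L₁, hL₁, h₁⟩ := S19.finLevel_tors N n
  -- the roots of unity
  have hfin : {ζ : Qb | ζ ^ n = 1}.Finite := by
    have h0 : (Polynomial.X ^ n - 1 : Polynomial Qb) ≠ 0 := Polynomial.X_pow_sub_C_ne_zero hn 1
    refine ((Polynomial.X ^ n - 1 : Polynomial Qb).roots.toFinset.finite_toSet).subset ?_
    intro ζ hζ
    have hζ' : ζ ^ n = 1 := hζ
    simp [Polynomial.mem_roots h0, hζ']
  haveI : Finite {ζ : Qb | ζ ^ n = 1} := hfin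
  have hL₂ : FiniteDimensional ℚ (IntermediateField.adjoin ℚ {ζ : Qb | ζ ^ n = 1}) :=
    IntermediateField.finiteDimensional_adjoin (fun x _ => Algebra.IsIntegral.isIntegral x)
  let U : Subgroup GQ :=
    { carrier := {σ | (∀ x : JZero N, n • x = 0 → σ • x = x) ∧ (∀ ζ : Qb, ζ ^ n = 1 → σ ζ = ζ)}
      one_mem' := ⟨fun x _ => one_smul _ x, fun ζ _ => rfl⟩
      mul_mem' := by
        rintro σ τ ⟨hσ, hσ'⟩ ⟨hτ, hτ'⟩
        refine ⟨fun x hx => by rw [mul_smul, hτ x hx, hσ x hx], fun ζ hζ => ?_⟩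
        show σ (τ ζ) = ζ
        rw [hτ' ζ hζ, hσ' ζ hζ]
      inv_mem' := by
        rintro σ ⟨hσ, hσ'⟩
        refine ⟨fun x hx => by rw [inv_smul_eq_iff, hσ x hx], fun ζ hζ => ?_⟩
        have h2 : σ⁻¹ (σ ζ) = ζ := AlgEquiv.symm_apply_apply σ ζ
        rw [hσ' ζ hζ] at h2
        exact h2 }
  refine ⟨U, ⟨?_⟩, ?_, fun σ hσ => hσ.1, fun σ hσ => hσ.2⟩
  · rintro σ ⟨hσ, hσ'⟩ g
    refine ⟨fun x hx => ?_, fun ζ hζ => ?_⟩
    · have h2 : n • (g⁻¹ • x) = 0 := by
        rw [smul_comm, hx]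
        exact smul_zero (A := JZero N) g⁻¹
      rw [mul_smul, mul_smul, hσ _ h2, smul_inv_smul]
    · have h2 : (g⁻¹ ζ) ^ n = 1 := by rw [← map_pow, hζ, map_one]
      show g (σ (g⁻¹ ζ)) = ζ
      rw [hσ' _ h2]
      exact AlgEquiv.apply_symm_apply g ζ
  · haveI : FiniteDimensional ℚ (L₁ ⊔ IntermediateField.adjoin ℚ {ζ : Qb | ζ ^ n = 1} :
        IntermediateField ℚ Qb) := IntermediateField.finiteDimensional_sup _ _
    refine Subgroup.isOpen_mono (H₁ := (L₁ ⊔ IntermediateField.adjoin ℚ {ζ : Qb | ζ ^ n = 1} :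
        IntermediateField ℚ Qb).fixingSubgroup) ?_ (IntermediateField.fixingSubgroup_isOpen _)
    intro σ hσ
    rw [IntermediateField.mem_fixingSubgroup_iff] at hσ
    refine ⟨fun x hx => ?_, fun ζ hζ => ?_⟩
    · have h3 : σ ∈ L₁.fixingSubgroup := by
        rw [IntermediateField.mem_fixingSubgroup_iff]
        exact fun a ha => hσ a ((le_sup_left : L₁ ≤ _) ha)
      have h4 := congrArg Subtype.val (h₁ σ h3 (S19.Tors.mk x hx))
      exact h4
    · exact hσ ζ ((le_sup_right : _ ≤ L₁ ⊔ _) (IntermediateField.subset_adjoin _ _ hζ))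

end Fermat.Agent.S15.Atl
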