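import Fermat.Agent.S15.Atl.ES
import Fermat.Agent.S15.Atl.Dickson
import Fermat.Agent.S15.Atl.Level
import Fermat.Agent.GR.G.Main
import Fermat.Agent.GR.H.Cyc

/-!
# S15-ATL: (CH) in explicit form: `σ + χ(σ) σ⁻¹` is a polynomial in some `T_q` on `J[n]`
-/

set_option autoImplicit false

noncomputable section

open AlgebraicCurve ModularCurve Polynomial

namespace Fermat.Agent.S15.Atl

open Fermat.Agent.GR Fermat.Agent.GR.S Fermat.Agent.GR.H Fermat.Agent.GR.I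

variable (N : ℕ) [NeZero N]

variable {N} in
/-- the action of `g : G_ℚ` as an endomorphism. -/
def CH_act (g : GQ) : Module.End ℤ (JZero N) :=
  (DistribSMul.toAddMonoidHom (JZero N) g).toIntLinearMap

variable {N} in
theorem CH_act_apply (g : GQ) (x : JZero N) : CH_act g x = g • x := rfl

variable {N} in
theorem CH_act_mul (g h : GQ) : (CH_act g * CH_act h : Module.End ℤ (JZero N)) = CH_act (g * h) := by
  ext x
  rw [Module.End.mul_apply, CH_act_apply, CH_act_apply, CH_act_apply, mul_smul]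

variable {N} in
theorem CH_act_one : (CH_act (1 : GQ) : Module.End ℤ (JZero N)) = 1 := by
  ext x
  rw [CH_act_apply, one_smul, Module.End.one_apply]

variable {N} in
theorem CH_act_pow (g : GQ) (j : ℕ) : (CH_act g ^ j : Module.End ℤ (JZero N)) = CH_act (g ^ j) := by
  induction j with
  | zero => rw [pow_zero, pow_zero, CH_act_one]
  | succ j ih => rw [pow_succ, pow_succ, ih, CH_act_mul]

theorem CH_frob_pow (A : ValuationSubring Qb) (q : ℕ) (hq : q.Prime) (hA : A.LiesOverPrime q)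
    (τ : GQ) (hτ : A.IsFrobeniusAt τ q) (n : ℕ) (hqn : ¬ q ∣ n) (ζ : Qb) (hζ : ζ ^ n = 1) (j : ℕ) :
    (τ ^ j) ζ = ζ ^ (q ^ j) := by
  induction j with
  | zero => rw [pow_zero, pow_zero, pow_one]; rfl
  | succ j ih =>
    rw [pow_succ', AlgEquiv.mul_apply, ih, map_pow,
      frobenius_rootOfUnity A q hq hA τ hτ n hqn ζ hζ, ← pow_mul, pow_succ']

theorem CH_nsmul_congr {E : Type*} [AddCommGroup E] {n a b : ℕ} (h : a ≡ b [MOD n]) {y : E}
    (hy : n • y = 0) : a • y = b • y :=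
  nsmul_eq_nsmul_iff_modEq.mpr (h.of_dvd (addOrderOf_dvd_of_nsmul_eq_zero hy))

/-- **(CH), explicit form.** -/
theorem exists_dickson (n : ℕ) (hn : 0 < n) (σ : GQ) (S : Finset ℕ) :
    ∃ (q : ℕ) (hq : q.Prime) (R : ℤ[X]), ¬ q ∣ N ∧ q ∉ S ∧
      ∀ k : ℕ, (∀ ζ : Qb, ζ ^ n = 1 → σ ζ = ζ ^ k) → ∀ x : JZero N, n • x = 0 →
        σ • x + k • σ⁻¹ • x = aeval (Tq N hq) R x := by
  classical
  obtain ⟨U, hUn, hUo, hUJ, hUμ⟩ := exists_level N n hn
  obtain ⟨q, A, τ, hq, hqS, hA, hτ, ⟨j, hj⟩, -⟩ :=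
    Fermat.Agent.GR.G.exists_frobenius_pow_mem U hUn hUo (S ∪ (N * n).primeFactors) σ
  have hqS' : q ∉ S := fun h => hqS (Finset.mem_union_left _ h)
  have hqNn : ¬ q ∣ N * n := fun h => hqS (Finset.mem_union_right _
    (Nat.mem_primeFactors.mpr ⟨hq, h, mul_ne_zero (NeZero.ne N) hn.ne'⟩))
  have hqN : ¬ q ∣ N := fun h => hqNn (h.mul_right n)
  have hqn : ¬ q ∣ n := fun h => hqNn (h.mul_left N)
  refine ⟨q, hq, dickson 1 (q : ℤ) j, hqN, hqS', ?_⟩
  intro k hk x hx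
  have h0 : ∀ ψ : GQ, ψ • (0 : JZero N) = 0 := fun ψ =>
    (DistribSMul.toAddMonoidHom (JZero N) ψ).map_zero
  have hσJ : ∀ y : JZero N, n • y = 0 → σ • y = τ ^ j • y := by
    intro y hy
    have h := hUJ _ hj y hy
    rw [mul_smul] at h
    have h2 : σ • σ⁻¹ • τ ^ j • y = σ • y := by rw [h]
    rw [smul_inv_smul] at h2
    exact h2.symm
  have hσi : σ⁻¹ • x = (τ⁻¹) ^ j • x := by
    have hy : n • ((τ⁻¹) ^ j • x) = 0 := by
      rw [← ES_smul_nsmul, hx, h0]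
    have h := hσJ _ hy
    rw [inv_pow, smul_inv_smul] at h
    rw [inv_pow]
    calc σ⁻¹ • x = σ⁻¹ • (σ • (τ ^ j)⁻¹ • x) := by rw [h]
      _ = (τ ^ j)⁻¹ • x := inv_smul_smul _ _
  -- the cyclotomic character
  have : NeZero n := ⟨hn.ne'⟩
  obtain ⟨ζ, hζ⟩ := HasEnoughRootsOfUnity.exists_primitiveRoot Qb n
  have hkq : k ≡ q ^ j [MOD n] := by
    have h1 : σ ζ = (τ ^ j) ζ := by
      have h := hUμ _ hj ζ hζ.pow_eq_one
      rw [AlgEquiv.mul_apply] at h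
      have h2 : σ (σ⁻¹ ((τ ^ j) ζ)) = σ ζ := by rw [h]
      rw [← h2]
      exact AlgEquiv.apply_symm_apply σ _
    rw [hk ζ hζ.pow_eq_one, CH_frob_pow A q hq hA τ hτ n hqn ζ hζ.pow_eq_one j] at h1
    have hz0 : ζ ≠ 0 := hζ.ne_zero hn.ne'
    have h3 : ζ ^ (((q ^ j : ℕ) : ℤ) - (k : ℤ)) = 1 := by
      rw [zpow_sub₀ hz0, zpow_natCast, zpow_natCast, h1, div_self (pow_ne_zero _ hz0)]
    exact (Nat.modEq_iff_dvd).mpr ((hζ.zpow_eq_one_iff_dvd _).mp h3)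
  have hy : n • (σ⁻¹ • x) = 0 := by
    rw [← ES_smul_nsmul, hx, h0]
  rw [CH_nsmul_congr hkq hy, hσJ x hx, hσi]
  have hD := dickson_apply n (CH_act τ) (CH_act τ⁻¹) (Tq N hq) (q : ℤ)
    (by rw [CH_act_mul, mul_inv_cancel, CH_act_one]) (by rw [CH_act_mul, inv_mul_cancel, CH_act_one])
    (fun z hz => by
      rw [CH_act_apply, CH_act_apply, natCast_zsmul]
      exact (frob_add_inv hq hqN hA hτ hqn hz).symm) j x hx
  rw [← hD, CH_act_pow, CH_act_pow, CH_act_apply, CH_act_apply, ← Nat.cast_pow, natCast_zsmul]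

end Fermat.Agent.S15.Atl
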