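import Fermat.Agent.S15.Atl.Defs

/-!
# S15-ATL: Kummer functions of torsion classes, 3 (Hecke)
-/

set_option autoImplicit false

noncomputable section

open AlgebraicCurve ModularCurve Fermat.Agent.S17.FF

namespace Fermat.Agent.S15.Atl

open Fermat.Agent.GR Fermat.Agent.GR.S Fermat.Agent.GR.H Fermat.Agent.GR.I

local notation "𝔽" => modularFunctionFieldBar

variable {N : ℕ} [NeZero N] {n : ℕ} {x y x' : JZero N} {u v u' : LaurentSeries Qb}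


/-- PROOF. `heckeOperatorBar_mk`, `heckeDiv_divf`, `norm_heckeBeta`: `divf (heckeMulT q ζ u) =
heckeDiv (divf u) = heckeDiv (n • D) = n • heckeDiv D`; non-vanishing: `heckeMulT_ne_zero`
(GR/F/FormalNorm). -/
theorem IsKumOf.hecke {q : ℕ} [NeZero q] (hq : q.Prime) (hqN : ¬ q ∣ N) (ζ : Qbˣ)
    (hζ : IsPrimitiveRoot ζ q) (h : IsKumOf N n x u) :
    IsKumOf N n (Tq N hq x) (heckeMulT q ζ u) := by
  obtain ⟨hu, D, hu0, hD, rfl⟩ := h
  have hu1 : (⟨u, hu⟩ : 𝔽 N) ≠ 0 := fun h => hu0 (congrArg Subtype.val h)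
  have hg := norm_heckeBeta N q hq hqN ζ hζ (⟨u, hu⟩ : 𝔽 N)
  have hd := heckeDiv_divf N q (⟨u, hu⟩ : 𝔽 N) hu1
  generalize (letI := algebraAlong (heckeAlphaBar Kb N q)
      Algebra.norm (modularFunctionFieldBar N) (heckeBetaBar Kb N q (⟨u, hu⟩ : 𝔽 N))) = g at hg hd
  have hmem : heckeMulT q ζ u ∈ 𝔽 N := hg ▸ g.2
  have hge : (⟨heckeMulT q ζ u, hmem⟩ : 𝔽 N) = g := Subtype.ext hg.symm
  refine ⟨hmem, ⟨heckeDiv N q D, heckeDiv_mem_degZero N q D.2⟩, heckeMulT_ne_zero q ζ hζ hu0, ?_,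
    (heckeOperatorBar_mk q hq D).symm⟩
  rw [hge, ← hd, hD, map_nsmul]

end Fermat.Agent.S15.Atl
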