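import Fermat.Agent.S15.Atl.Kum1
import Fermat.Agent.S15.Atl.Kum2
import Fermat.Agent.S15.Atl.Kum3

/-!
# S15-ATL: the dictionary `J[n] = Kummer classes = Λ / n Λ`, Hecke equivariantly
-/

set_option autoImplicit false

noncomputable section

open AlgebraicCurve ModularCurve Fermat.Agent.S17.FF

namespace Fermat.Agent.S15.Atl

open Fermat.Agent.GR Fermat.Agent.GR.S Fermat.Agent.GR.H Fermat.Agent.GR.I

local notation "𝔽" => modularFunctionFieldBar

variable {N : ℕ} [NeZero N] {n : ℕ} {x y x' : JZero N} {u v u' : LaurentSeries Qb}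


/-! ### lifts to the lattice -/

variable {a b : (kd N).Λ}

/-- PROOF. `exists_isKumOf`, `IsKumOf.isKummer`, `(kd N).theta_mem`. -/
theorem exists_isLift (hn : 0 < n) (hx : n • x = 0) : ∃ a, IsLift N n x a := by
  obtain ⟨u, hu⟩ := exists_isKumOf hx
  obtain ⟨a, ha⟩ := (kd N).theta_mem n hn u hu.isKummer
  exact ⟨a, u, hu, ha.symm⟩

/-- PROOF. `(kd N).theta_eq_iff` + `IsKumOf.eq_of_kummerEquiv`. -/
theorem IsLift.eq (hn : 0 < n) (h : IsLift N n x a) (h' : IsLift N n x' a) : x = x' := by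
  obtain ⟨u, hu, e⟩ := h
  obtain ⟨u', hu', e'⟩ := h'
  exact hu.eq_of_kummerEquiv hn hu'
    (((kd N).theta_eq_iff n hn u u' hu.isKummer hu'.isKummer).mp (e.trans e'.symm))

/-- PROOF. `(kd N).theta_mul`, `map_add`. -/
theorem IsLift.add (hn : 0 < n) (h : IsLift N n x a) (h' : IsLift N n y b) :
    IsLift N n (x + y) (a + b) := by
  obtain ⟨u, hu, e⟩ := h
  obtain ⟨u', hu', e'⟩ := h'
  refine ⟨u * u', hu.mul hu', ?_⟩
  rw [(kd N).theta_mul n hn u u' hu.isKummer hu'.isKummer, e, e', map_add]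

/-- PROOF. `theta n 1 + theta n 1 = theta n 1` by `theta_mul`. -/
theorem isLift_zero (hn : 0 < n) : IsLift N n (0 : JZero N) 0 := by
  refine ⟨1, isKumOf_zero, ?_⟩
  have h1 := (kd N).theta_mul n hn 1 1 (isKumOf_zero (N := N)).isKummer
    (isKumOf_zero (N := N)).isKummer
  rw [mul_one] at h1
  rw [map_zero]
  exact left_eq_add.mp h1

/-- PROOF. `theta n u + theta n u⁻¹ = theta n 1 = 0`. -/
theorem IsLift.neg (hn : 0 < n) (h : IsLift N n x a) : IsLift N n (-x) (-a) := by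
  obtain ⟨u, hu, e⟩ := h
  refine ⟨u⁻¹, hu.inv, ?_⟩
  have h1 := (kd N).theta_mul n hn u u⁻¹ hu.isKummer hu.inv.isKummer
  obtain ⟨w, hw, e0⟩ := isLift_zero (N := N) hn
  have hu0 : u ≠ 0 := hu.isKummer.1
  have h2 : (kd N).theta n 1 = 0 := by
    have h1 := (kd N).theta_mul n hn 1 1 (isKumOf_zero (N := N)).isKummer
      (isKumOf_zero (N := N)).isKummer
    rw [mul_one] at h1
    exact left_eq_add.mp h1
  rw [mul_inv_cancel₀ hu0, h2, e] at h1
  rw [map_neg]
  exact (neg_eq_of_add_eq_zero_right h1.symm).symm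

theorem IsLift.zsmul (hn : 0 < n) (h : IsLift N n x a) (k : ℤ) : IsLift N n (k • x) (k • a) := by
  have hnat : ∀ j : ℕ, IsLift N n (j • x) (j • a) := by
    intro j
    induction j with
    | zero => rw [zero_nsmul, zero_nsmul]; exact isLift_zero hn
    | succ j ih => rw [succ_nsmul, succ_nsmul]; exact ih.add hn h
  obtain ⟨j, rfl | rfl⟩ := k.eq_nat_or_neg
  · rw [natCast_zsmul, natCast_zsmul]; exact hnat j
  · rw [neg_smul, neg_smul, natCast_zsmul, natCast_zsmul]; exact (hnat j).neg hn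

/-- PROOF. `IsKumOf.hecke` + `(kd N).theta_heckeT` (a primitive `q`-th root of unity exists:
`GR.I.exists_primitiveRoot`). -/
theorem IsLift.hecke (hn : 0 < n) {q : ℕ} (hq : q.Prime) (hqN : ¬ q ∣ N) (h : IsLift N n x a) :
    IsLift N n (Tq N hq x) ((kd N).hecke (HeckeFull.T hq hqN) a) := by
  have : NeZero q := ⟨hq.ne_zero⟩
  obtain ⟨ζ, hζ⟩ : ∃ ζ : Qbˣ, IsPrimitiveRoot ζ q := by
    obtain ⟨ζ, hζ⟩ := HasEnoughRootsOfUnity.exists_primitiveRoot Qb q
    exact ⟨hζ.isUnit (NeZero.ne q) |>.unit, IsPrimitiveRoot.coe_units_iff.mp (by simpa using hζ)⟩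
  obtain ⟨u, hu, e⟩ := h
  exact ⟨heckeMulT q ζ u, hu.hecke hq hqN ζ hζ,
    (kd N).theta_heckeT n hn q hq hqN ζ hζ u a hu.isKummer e⟩

end Fermat.Agent.S15.Atl
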