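import Fermat.Agent.S15.Red.Fam

/-!
# S15-ATL: Eichler-Shimura on torsion: `T_q = Frob + q Frob⁻¹` on `J[m]`, `q ∤ m N`

(uses the family of kernels of reduction `Red.Kfam` of S15-RED)
-/

set_option autoImplicit false

noncomputable section

open AlgebraicCurve ModularCurve Fermat.Agent.S17.FF

namespace Fermat.Agent.S15.Atl

open Fermat.Agent.GR Fermat.Agent.GR.S Fermat.Agent.GR.H Fermat.Agent.GR.I

theorem liesOverPrime_unique {A : ValuationSubring Qb} {q q' : ℕ} (hq : q.Prime) (hq' : q'.Prime)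
    (h : A.LiesOverPrime q) (h' : A.LiesOverPrime q') : q = q' :=
  Red.prime_unique hq hq' h h'

variable {N : ℕ} [NeZero N]

theorem ES_smul_nsmul (φ : GQ) (m : ℕ) (x : JZero N) : φ • (m • x) = m • φ • x :=
  (DistribSMul.toAddMonoidHom (JZero N) φ).map_nsmul m x

/-- **Eichler-Shimura on torsion prime to `q`.** -/
theorem es_tors {q : ℕ} (hq : q.Prime) (hqN : ¬ q ∣ N) {A : ValuationSubring Qb}
    (hA : A.LiesOverPrime q) {φ : GQ} (hφ : A.IsFrobeniusAt φ q) {m : ℕ} (hm : ¬ q ∣ m)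
    {x : JZero N} (hx : m • x = 0) : φ • φ • x - Tq N hq (φ • x) + q • x = 0 := by
  refine (Red.k1Fam N).tor q hq hqN A hA m hm _ ((Red.k1Fam N).es q hq hqN A hA φ hφ x) ?_
  have h0 : ∀ ψ : GQ, ψ • (0 : JZero N) = 0 := fun ψ =>
    (DistribSMul.toAddMonoidHom (JZero N) ψ).map_zero
  rw [nsmul_add, nsmul_sub, ← map_nsmul, ← ES_smul_nsmul, ← ES_smul_nsmul, nsmul_left_comm, hx,
    h0, h0, map_zero, nsmul_zero, sub_zero, add_zero]

theorem frob_add_inv {q : ℕ} (hq : q.Prime) (hqN : ¬ q ∣ N) {A : ValuationSubring Qb}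
    (hA : A.LiesOverPrime q) {φ : GQ} (hφ : A.IsFrobeniusAt φ q) {m : ℕ} (hm : ¬ q ∣ m)
    {x : JZero N} (hx : m • x = 0) : φ • x + q • φ⁻¹ • x = Tq N hq x := by
  have hx' : m • (φ⁻¹ • x) = 0 := by
    rw [← ES_smul_nsmul, hx]
    exact (DistribSMul.toAddMonoidHom (JZero N) φ⁻¹).map_zero
  have h := es_tors hq hqN hA hφ hm hx'
  rw [smul_inv_smul] at h
  have h2 : φ • x + q • φ⁻¹ • x - Tq N hq x = 0 := by rw [← h]; abel
  exact sub_eq_zero.mp h2

end Fermat.Agent.S15.Atl
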