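import Fermat.Agent.S15.Atl.Gal3

/-!
# S15-ATL: the Hecke operators on `J₀(N)(ℚ̄)` commute with the Galois action
-/

set_option autoImplicit false

noncomputable section

open AlgebraicCurve ModularCurve Fermat.Agent.S17.FF

namespace Fermat.Agent.S15.Atl

open Fermat.Agent.GR Fermat.Agent.GR.S Fermat.Agent.GR.H Fermat.Agent.GR.I

local notation "𝔽" => modularFunctionFieldBar

variable {N : ℕ} [NeZero N]


/-- **`T_q` commutes with `G_ℚ`.**  PROOF. `x = Pic0.mk D`; `heckeOperatorBar_mk` (GR/S/K1.lean),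
`σ • Pic0.mk D = Pic0.mk (SemilinearAut.degZeroSMulHom (gq N σ) D)` is `rfl` (see `es_mem_K1`), then
`heckeDiv_smul`. -/
theorem Tq_smul {q : ℕ} (hq : q.Prime) (hqN : ¬ q ∣ N) (σ : GQ) (x : JZero N) :
    Tq N hq (σ • x) = σ • Tq N hq x := by
  have : NeZero q := ⟨hq.ne_zero⟩
  obtain ⟨D, rfl⟩ := Pic0.mk_surjective x
  have h1 : σ • Pic0.mk D = Pic0.mk (SemilinearAut.degZeroSMulHom (gq N σ) D) := rfl
  have h3 := heckeOperatorBar_mk q hq (SemilinearAut.degZeroSMulHom (gq N σ) D)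
  have h4 := heckeOperatorBar_mk q hq D
  show heckeOperatorBar N ⟨q, hq⟩ (σ • Pic0.mk D) = σ • heckeOperatorBar N ⟨q, hq⟩ (Pic0.mk D)
  rw [h1, h3, h4]
  have h5 : σ • Pic0.mk (⟨heckeDiv N q D, heckeDiv_mem_degZero N q D.2⟩ :
      Divisor.degZero (K := Qb) (F := 𝔽 N)) =
      Pic0.mk (SemilinearAut.degZeroSMulHom (gq N σ) ⟨heckeDiv N q D, heckeDiv_mem_degZero N q D.2⟩) :=
    rfl
  rw [h5]
  congr 1
  apply Subtype.ext
  show heckeDiv N q (gq N σ • (D : Divisor Qb (𝔽 N))) = gq N σ • heckeDiv N q (D : Divisor Qb (𝔽 N))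
  exact heckeDiv_smul q hq hqN σ _ (Divisor.mem_degZero.mp D.2)

/-- PROOF. `Algebra.adjoin_induction` on `hT` (generators: `Tq_smul`; integers: `smul_comm`-type
lemma `σ • (n • x) = n • σ • x`; sums; products). -/
theorem Hk_smul {T : Module.End ℤ (JZero N)} (hT : T ∈ Hk N) (σ : GQ) (x : JZero N) :
    T (σ • x) = σ • T x := by
  induction hT using Algebra.adjoin_induction generalizing x with
  | mem T hT =>
    obtain ⟨q, hq, hqN, rfl⟩ := hT
    exact Tq_smul hq hqN σ x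
  | algebraMap n =>
    rw [Module.algebraMap_end_apply, Module.algebraMap_end_apply]
    exact ((DistribSMul.toAddMonoidHom (JZero N) σ).map_zsmul n x).symm
  | add T T' _ _ h h' =>
    rw [LinearMap.add_apply, LinearMap.add_apply, h, h', smul_add]
  | mul T T' _ _ h h' =>
    rw [Module.End.mul_apply, Module.End.mul_apply, h', h]

theorem Tq_mem_Hk {q : ℕ} (hq : q.Prime) (hqN : ¬ q ∣ N) : Tq N hq ∈ Hk N :=
  Algebra.subset_adjoin ⟨q, hq, hqN, rfl⟩

/-- PROOF. `aeval` of an element of a subalgebra lies in the subalgebra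
(`Polynomial.aeval_mem_adjoin_singleton` + `Algebra.adjoin_le`, or `Subalgebra.aeval_coe`). -/
theorem aeval_Tq_mem_Hk {q : ℕ} (hq : q.Prime) (hqN : ¬ q ∣ N) (R : Polynomial ℤ) :
    Polynomial.aeval (Tq N hq) R ∈ Hk N := by
  have h := Polynomial.aeval_mem_adjoin_singleton ℤ (Tq N hq) (p := R)
  refine Algebra.adjoin_le ?_ h
  rintro _ rfl
  exact Tq_mem_Hk hq hqN

end Fermat.Agent.S15.Atl
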