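import Fermat.Agent.S15.Atl.Transfer
import Fermat.Agent.S15.Atl.GalComm
import Fermat.Agent.GR.S.Abs37

/-!
# S15-ATL: formal properties of `J1D`, `J1H` (largest stable subgroups of a family `K`)
-/

set_option autoImplicit false

noncomputable section

open AlgebraicCurve ModularCurve

namespace Fermat.Agent.S15.Atl

open Fermat.Agent.GR Fermat.Agent.GR.S

variable {N : ℕ} [NeZero N] {K : ValuationSubring Qb → AddSubgroup (JZero N)}
  {A : ValuationSubring Qb}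

theorem J1D_le : J1D K A ≤ K A := fun x hx => by
  have := hx 1 (Subgroup.one_mem _)
  rwa [one_smul] at this

theorem J1H_le : J1H K A ≤ K A := fun x hx => by
  have := hx 1 (Subgroup.one_mem _) 1 (Subalgebra.one_mem _)
  rwa [one_smul] at this

theorem J1D_decomp {δ : GQ} (hδ : δ ∈ A.decompositionSubgroup ℚ) {z : JZero N} (hz : z ∈ J1D K A) :
    δ • z ∈ J1D K A := fun δ' hδ' => by
  rw [← mul_smul]
  exact hz _ (Subgroup.mul_mem _ hδ' hδ)

theorem J1H_decomp {δ : GQ} (hδ : δ ∈ A.decompositionSubgroup ℚ) {z : JZero N} (hz : z ∈ J1H K A) :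
    δ • z ∈ J1H K A := fun δ' hδ' T hT => by
  rw [← mul_smul]
  exact hz _ (Subgroup.mul_mem _ hδ' hδ) T hT

/-- PROOF. `T' (δ • T x) = (T' * T) (δ • x)` by `Hk_smul`. -/
theorem J1H_Hk {T : Module.End ℤ (JZero N)} (hT : T ∈ Hk N) {x : JZero N} (hx : x ∈ J1H K A) :
    T x ∈ J1H K A := by
  intro δ hδ T' hT'
  rw [← Hk_smul hT δ x, ← Module.End.mul_apply]
  exact hx δ hδ (T' * T) (Subalgebra.mul_mem _ hT' hT)

/-- PROOF. `δ • (σ • z - z) = (δ σ δ⁻¹) • w - w`, `w = δ • z`; `GR.S.Abs37_conj_mem`. -/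
theorem J1D_inert (hK : K1Fam N K) {q : ℕ} (hq : q.Prime) (hqN : ¬ q ∣ N) (hA : A.LiesOverPrime q)
    {σ : GQ} (hσ : σ ∈ A.inertiaSubgroupIn ℚ) (z : JZero N) : σ • z - z ∈ J1D K A := by
  intro δ hδ
  have h := hK.inert q hq hqN A hA _ (Abs37_conj_mem A hδ hσ) (δ • z)
  have e : (δ * σ * δ⁻¹) • (δ • z) = δ • (σ • z) := by
    rw [mul_smul, mul_smul, inv_smul_smul]
  rw [e] at h
  rw [smul_sub]
  exact h

/-- PROOF. `T (δ • (σ • z - z)) = (δ σ δ⁻¹) • w - w`, `w = T (δ • z)` (`Hk_smul`). -/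
theorem J1H_inert (hK : K1Fam N K) {q : ℕ} (hq : q.Prime) (hqN : ¬ q ∣ N) (hA : A.LiesOverPrime q)
    {σ : GQ} (hσ : σ ∈ A.inertiaSubgroupIn ℚ) (z : JZero N) : σ • z - z ∈ J1H K A := by
  intro δ hδ T hT
  have h := hK.inert q hq hqN A hA _ (Abs37_conj_mem A hδ hσ) (T (δ • z))
  have e : (δ * σ * δ⁻¹) • (T (δ • z)) = T (δ • (σ • z)) := by
    rw [← Hk_smul hT, mul_smul, mul_smul, inv_smul_smul]
  rw [e] at h
  rw [smul_sub, map_sub]
  exact h

/-- a conjugate of a Frobenius element by an element of the decomposition group is a Frobenius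
element.  PROOF. unfold `ValuationSubring.IsFrobeniusAt` (Prelude Def_EllipticCurve_FrobeniusTrace):
membership in the decomposition group + action `x ↦ x ^ q` on the residue field; the action of `δ` on the
residue field is a ring automorphism, so it commutes with `x ↦ x ^ q`
(`IsFrobeniusAt.smul_residue_eq`, `mul_smul`, `smul_pow'`). -/
theorem isFrobeniusAt_conj {q : ℕ} {φ δ : GQ} (hφ : A.IsFrobeniusAt φ q)
    (hδ : δ ∈ A.decompositionSubgroup ℚ) : A.IsFrobeniusAt (δ * φ * δ⁻¹) q := by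
  have hφd := hφ.mem_decompositionSubgroup
  refine ⟨Subgroup.mul_mem _ (Subgroup.mul_mem _ hδ hφd) (Subgroup.inv_mem _ hδ), fun x => ?_⟩
  have e : (⟨δ * φ * δ⁻¹, Subgroup.mul_mem _ (Subgroup.mul_mem _ hδ hφd) (Subgroup.inv_mem _ hδ)⟩ :
      A.decompositionSubgroup ℚ) =
      (⟨δ, hδ⟩ : A.decompositionSubgroup ℚ) * ⟨φ, hφd⟩ * (⟨δ, hδ⟩ : A.decompositionSubgroup ℚ)⁻¹ :=
    rfl
  rw [e, mul_smul, mul_smul, hφ.smul_residue_eq, smul_pow', smul_inv_smul]

/-- PROOF. `φ' = δ φ δ⁻¹`, `w = T (δ • x)` (torsion).  `T (δ • (φ φ x - T_q (φ x) + q x)) =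
φ' φ' w - T_q (φ' w) + q w` by `Hk_smul`, `Tq_smul`, `Hk_Tq_comm` (this is where `x` torsion is used);
then `hK.es` for `φ'` (`isFrobeniusAt_conj`). -/
theorem J1H_es (hK : K1Fam N K) {q : ℕ} (hq : q.Prime) (hqN : ¬ q ∣ N) (hA : A.LiesOverPrime q)
    {φ : GQ} (hφ : A.IsFrobeniusAt φ q) {x : JZero N} (hx : IsTors x) :
    φ • φ • x - Tq N hq (φ • x) + q • x ∈ J1H K A := by
  intro δ hδ T hT
  have hφ' := isFrobeniusAt_conj hφ hδ
  have h := hK.es q hq hqN A hA _ hφ' (T (δ • x))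
  have e1 : (δ * φ * δ⁻¹) • (T (δ • x)) = T (δ • (φ • x)) := by
    rw [← Hk_smul hT, mul_smul, mul_smul, inv_smul_smul]
  have e2 : (δ * φ * δ⁻¹) • (T (δ • (φ • x))) = T (δ • (φ • φ • x)) := by
    rw [← Hk_smul hT, mul_smul, mul_smul, inv_smul_smul]
  have e3 : Tq N hq (T (δ • (φ • x))) = T (δ • Tq N hq (φ • x)) := by
    rw [← Hk_Tq_comm hT hq hqN ((hx.smul φ).smul δ), Tq_smul hq hqN]
  rw [e1, e2, e3] at h
  have e4 : δ • (q • x) = q • (δ • x) :=
    (DistribSMul.toAddMonoidHom (JZero N) δ).map_nsmul q x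
  rw [smul_add, smul_sub, map_add, map_sub, e4, map_nsmul]
  exact h

theorem mem_J1D_of_fixed {y : JZero N} (hy : ∀ δ ∈ A.decompositionSubgroup ℚ, δ • y = y)
    (h : y ∈ K A) : y ∈ J1D K A := fun δ hδ => by rw [hy δ hδ]; exact h

end Fermat.Agent.S15.Atl
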