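import Fermat.Agent.S15.Atl.Transfer
import Fermat.Agent.S15.Atl.NE2
import Fermat.Agent.S19.A.Tors

/-!
# S15-ATL: (NE), algebraic half

From the ANALYTIC statement `NEAt N q` (`T_q ∓ (1 + q)` is injective on `S₂(Γ₀(N))`, module S15-NE) to:
the kernels of `T_q ∓ (1 + q)` on the torsion of `J₀(N)` are finite.
-/

set_option autoImplicit false

noncomputable section

open AlgebraicCurve ModularCurve Polynomial

namespace Fermat.Agent.S15.Atl

open Fermat.Agent.GR Fermat.Agent.GR.S Fermat.Agent.GR.H Fermat.Agent.GR.I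

variable {N : ℕ} [NeZero N]

/-- PROOF. `exists_poly` + `aeval_Tq_eq_zero`: for `x` torsion, `B(T_q) ((T_q - c) x) = m x` (write the
product in the other order: `(X - C c) * B = B * (X - C c)`), so `T_q x = c x` implies `m • x = 0`: the set
is contained in `J[|m|]`, which is finite (`S19.finite_tors N m.natAbs`, `NeZero`). -/
theorem finite_eigen {q : ℕ} (h : NEAt N q) (hq : q.Prime) (hqN : ¬ q ∣ N) (c : ℤ)
    (hc : c = 1 + q ∨ c = -(1 + q)) :
    {x : JZero N | IsTors x ∧ Tq N hq x = c • x}.Finite := by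
  obtain ⟨B, m, hm, hR⟩ := exists_poly h hq hqN c hc
  haveI : NeZero m.natAbs := ⟨Int.natAbs_ne_zero.mpr hm⟩
  haveI := S19.finite_tors N m.natAbs
  refine (Set.finite_range (Subtype.val : S19.Tors N (m.natAbs : ℤ) → JZero N)).subset ?_
  rintro x ⟨hx, hTx⟩
  have h1 := aeval_Tq_eq_zero hq hqN _ hR hx
  rw [mul_comm, map_sub, map_mul, map_sub, aeval_X, aeval_C, aeval_C] at h1
  simp only [LinearMap.sub_apply, Module.End.mul_apply, Module.algebraMap_end_apply] at h1
  rw [hTx, sub_self, map_zero, zero_sub, neg_eq_zero] at h1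
  have h2 : m.natAbs • x = 0 := by
    rcases Int.natAbs_eq m with h | h
    · rw [h, natCast_zsmul] at h1
      simpa using h1
    · rw [h, neg_smul, neg_eq_zero, natCast_zsmul] at h1
      simpa using h1
  exact ⟨S19.Tors.mk x h2, rfl⟩

end Fermat.Agent.S15.Atl
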