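import Fermat.Agent.S15.Atl.CH
import Fermat.Agent.S15.Atl.J1
import Fermat.Agent.S15.Atl.NE

/-!
# S15-ATL: EXPORT = the fields `ch`, `ne`, `J1_decomp`, `J1_inert`, `J1_tor`, `Tℓ_*`, `t_J1`, `es_ℓ`,
`ne_ℓ`, `ne_ℓ'` of `S15.Raw (JZero p) p ℓ`

with `J1 := Atl.J1 K ℓ` (`K` any family with `K1Fam p K`, e.g. `K1A p`) and `Tℓ := Tq p hℓ`.
The statements are literally the fields of `Raw` (Fermat/Agent/S15/Abs/Defs.lean).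
-/

set_option autoImplicit false

noncomputable section

open AlgebraicCurve ModularCurve

namespace Fermat.Agent.S15.Atl

open Fermat.Agent.GR Fermat.Agent.GR.S

variable {p ℓ : ℕ} [NeZero p]

theorem not_dvd_of_ne {p q : ℕ} (hp : p.Prime) (hq : q.Prime) (h : q ≠ p) : ¬ q ∣ p :=
  fun hd => h ((Nat.prime_dvd_prime_iff_eq hq hp).mp hd)

theorem isTors_of_mem_torInf (hℓ : ℓ.Prime) {x : JZero p} (hx : x ∈ torInf (JZero p) ℓ) :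
    IsTors x := by
  obtain ⟨r, hr⟩ := hx
  exact ⟨ℓ ^ r, pow_pos hℓ.pos r, hr⟩

/-- (CH).  PROOF. `exists_dickson p (ℓ^r) .. σ ∅` gives `q, R` with `σ • z + k • σ⁻¹ • z = R(T_q) z` on
`J[ℓ^r]`; apply it to `x` and to `τ • x`; `Hk_smul (aeval_Tq_mem_Hk ..)`. -/
theorem ch (hℓ : ℓ.Prime) (r : ℕ) (σ : GQ) (k : ℕ) (hk : IsCyc ℓ r σ k) (τ : GQ) (x : JZero p)
    (hx : (ℓ ^ r) • x = 0) :
    τ • (σ • x + k • σ⁻¹ • x) = σ • τ • x + k • σ⁻¹ • τ • x := by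
  obtain ⟨q, hq, R, hqN, -, h⟩ := exists_dickson p (ℓ ^ r) (pow_pos hℓ.pos r) σ ∅
  have hτx : (ℓ ^ r) • (τ • x) = 0 := by
    rw [smul_comm, hx]
    exact smul_zero (A := JZero p) τ
  rw [h k hk x hx, h k hk (τ • x) hτx, Hk_smul (aeval_Tq_mem_Hk hq hqN R)]

/-- (NE).  PROOF. on `J[ℓ^∞]`: `φ • x + q • φ⁻¹ • x = T_q x` (`frob_add_inv`, `m = ℓ^r`, `q ∤ ℓ^r`), so the
set is contained in the set of `finite_eigen` with `c = 1 + q`. -/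
theorem ne (hp : p.Prime) (hℓ : ℓ.Prime) (q : ℕ) (hq : q.Prime) (hqp : q ≠ p) (hqℓ : q ≠ ℓ)
    (hNE : NEAt p q) (A : ValuationSubring Qb) (hA : A.LiesOverPrime q) (φ : GQ)
    (hφ : A.IsFrobeniusAt φ q) :
    {x : JZero p | x ∈ torInf (JZero p) ℓ ∧ φ • x + q • φ⁻¹ • x = (1 + q) • x}.Finite := by
  have hqN : ¬ q ∣ p := not_dvd_of_ne hp hq hqp
  refine (finite_eigen hNE hq hqN (1 + q) (Or.inl rfl)).subset ?_
  rintro x ⟨hx, hxφ⟩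
  refine ⟨isTors_of_mem_torInf hℓ hx, ?_⟩
  obtain ⟨r, hr⟩ := hx
  have hm : ¬ q ∣ ℓ ^ r := fun hd =>
    hqℓ ((Nat.prime_dvd_prime_iff_eq hq hℓ).mp (hq.dvd_of_dvd_pow hd))
  rw [← frob_add_inv hq hqN hA hφ hm hr, hxφ]
  have : ((1 : ℤ) + (q : ℤ)) = ((1 + q : ℕ) : ℤ) := by push_cast; ring
  rw [this, natCast_zsmul]

variable {K : ValuationSubring Qb → AddSubgroup (JZero p)}

/-- PROOF. by cases on `A.LiesOverPrime ℓ`: `J1_of_liesOver` + `J1H_decomp`, `J1_of_not_liesOver` +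
`J1D_decomp`. -/
theorem J1_decomp (A : ValuationSubring Qb) (σ : GQ) (hσ : σ ∈ A.decompositionSubgroup ℚ)
    (z : JZero p) (hz : z ∈ J1 K ℓ A) : σ • z ∈ J1 K ℓ A := by
  by_cases h : A.LiesOverPrime ℓ
  · rw [J1_of_liesOver K h] at hz ⊢
    exact J1H_decomp hσ hz
  · rw [J1_of_not_liesOver K h] at hz ⊢
    exact J1D_decomp hσ hz

theorem J1_inert (hK : K1Fam p K) (hp : p.Prime) (q : ℕ) (hq : q.Prime) (hqp : q ≠ p)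
    (A : ValuationSubring Qb) (hA : A.LiesOverPrime q) (σ : GQ) (hσ : σ ∈ A.inertiaSubgroupIn ℚ)
    (z : JZero p) : σ • z - z ∈ J1 K ℓ A := by
  have hqN : ¬ q ∣ p := not_dvd_of_ne hp hq hqp
  by_cases h : A.LiesOverPrime ℓ
  · rw [J1_of_liesOver K h]
    exact J1H_inert hK hq hqN hA hσ z
  · rw [J1_of_not_liesOver K h]
    exact J1D_inert hK hq hqN hA hσ z

/-- PROOF. `A` does not lie over `ℓ` (`liesOverPrime_unique`), `J1 = J1D ≤ K A`, `hK.tor` with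
`m = ℓ^r`. -/
theorem J1_tor (hK : K1Fam p K) (hp : p.Prime) (hℓ : ℓ.Prime) (q : ℕ) (hq : q.Prime) (hqp : q ≠ p)
    (hqℓ : q ≠ ℓ) (A : ValuationSubring Qb) (hA : A.LiesOverPrime q) (z : JZero p)
    (hz : z ∈ J1 K ℓ A) (hz' : z ∈ torInf (JZero p) ℓ) : z = 0 := by
  have hqN : ¬ q ∣ p := not_dvd_of_ne hp hq hqp
  have h : ¬ A.LiesOverPrime ℓ := fun h => hqℓ (liesOverPrime_unique hq hℓ hA h)
  rw [J1_of_not_liesOver K h] at hz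
  obtain ⟨r, hr⟩ := hz'
  have hm : ¬ q ∣ ℓ ^ r := fun hd =>
    hqℓ ((Nat.prime_dvd_prime_iff_eq hq hℓ).mp (hq.dvd_of_dvd_pow hd))
  exact hK.tor q hq hqN A hA (ℓ ^ r) hm z (J1D_le hz) hr

/-- for RED (`J1_fin`), CEN (`y_mem`, `yc_mem`): at a place not over `ℓ`, a `D_A`-fixed element of `K A`
lies in `J1`. -/
theorem mem_J1_of_fixed (hℓ : ℓ.Prime) {q : ℕ} (hq : q.Prime) (hqℓ : q ≠ ℓ)
    {A : ValuationSubring Qb} (hA : A.LiesOverPrime q) {y : JZero p}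
    (hy : ∀ δ ∈ A.decompositionSubgroup ℚ, δ • y = y) (h : y ∈ K A) : y ∈ J1 K ℓ A := by
  have h' : ¬ A.LiesOverPrime ℓ := fun h' => hqℓ (liesOverPrime_unique hq hℓ hA h')
  rw [J1_of_not_liesOver K h']
  exact mem_J1D_of_fixed hy h

/-- for CUSP (`c_not_mem`). -/
theorem not_mem_J1 {A : ValuationSubring Qb} {c : JZero p} (h : c ∉ K A) : c ∉ J1 K ℓ A := by
  intro hc
  by_cases h' : A.LiesOverPrime ℓ
  · rw [J1_of_liesOver K h'] at hc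
    exact h (J1H_le hc)
  · rw [J1_of_not_liesOver K h'] at hc
    exact h (J1D_le hc)

theorem Tℓ_mem (hℓ : ℓ.Prime) (r : ℕ) (x : JZero p) (hx : (ℓ ^ r) • x = 0) :
    (ℓ ^ r) • Tq p hℓ x = 0 := by
  rw [← map_nsmul, hx, map_zero]

theorem Tℓ_add (hℓ : ℓ.Prime) (x y : JZero p) : Tq p hℓ (x + y) = Tq p hℓ x + Tq p hℓ y :=
  map_add _ _ _

theorem Tℓ_gal (hp : p.Prime) (hℓ : ℓ.Prime) (hℓp : ℓ ≠ p) (σ : GQ) (x : JZero p) :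
    Tq p hℓ (σ • x) = σ • Tq p hℓ x :=
  Tq_smul hℓ (not_dvd_of_ne hp hℓ hℓp) σ x

theorem Tℓ_J1 (hp : p.Prime) (hℓ : ℓ.Prime) (hℓp : ℓ ≠ p) {A : ValuationSubring Qb}
    (hA : A.LiesOverPrime ℓ) (x : JZero p) (hx : x ∈ J1 K ℓ A) : Tq p hℓ x ∈ J1 K ℓ A := by
  rw [J1_of_liesOver K hA] at hx ⊢
  exact J1H_Hk (Tq_mem_Hk hℓ (not_dvd_of_ne hp hℓ hℓp)) hx

/-- PROOF. `exists_dickson`, `aeval_Tq_mem_Hk`, `J1H_Hk`. -/
theorem t_J1 (hℓ : ℓ.Prime) {A : ValuationSubring Qb} (hA : A.LiesOverPrime ℓ) (r : ℕ) (σ : GQ)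
    (k : ℕ) (hk : IsCyc ℓ r σ k) (x : JZero p) (hx : (ℓ ^ r) • x = 0) (hx' : x ∈ J1 K ℓ A) :
    σ • x + k • σ⁻¹ • x ∈ J1 K ℓ A := by
  obtain ⟨q, hq, R, hqN, -, h⟩ := exists_dickson p (ℓ ^ r) (pow_pos hℓ.pos r) σ ∅
  rw [h k hk x hx]
  rw [J1_of_liesOver K hA] at hx' ⊢
  exact J1H_Hk (aeval_Tq_mem_Hk hq hqN R) hx'

theorem es_ℓ (hK : K1Fam p K) (hp : p.Prime) (hℓ : ℓ.Prime) (hℓp : ℓ ≠ p)
    {A : ValuationSubring Qb} (hA : A.LiesOverPrime ℓ) (φ : GQ) (hφ : A.IsFrobeniusAt φ ℓ)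
    (x : JZero p) (hx : x ∈ torInf (JZero p) ℓ) :
    φ • φ • x - Tq p hℓ (φ • x) + ℓ • x ∈ J1 K ℓ A := by
  rw [J1_of_liesOver K hA]
  exact J1H_es hK hℓ (not_dvd_of_ne hp hℓ hℓp) hA hφ (isTors_of_mem_torInf hℓ hx)

/-- PROOF. subset of `finite_eigen` with `c = 1 + ℓ` (`natCast_zsmul`, push_cast). -/
theorem ne_ℓ (hp : p.Prime) (hℓ : ℓ.Prime) (hℓp : ℓ ≠ p) (hNE : NEAt p ℓ) :
    {x : JZero p | x ∈ torInf (JZero p) ℓ ∧ Tq p hℓ x = (1 + ℓ) • x}.Finite := by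
  refine (finite_eigen hNE hℓ (not_dvd_of_ne hp hℓ hℓp) (1 + ℓ) (Or.inl rfl)).subset ?_
  rintro x ⟨hx, hxT⟩
  refine ⟨isTors_of_mem_torInf hℓ hx, ?_⟩
  have : ((1 : ℤ) + (ℓ : ℤ)) = ((1 + ℓ : ℕ) : ℤ) := by push_cast; ring
  rw [hxT, this, natCast_zsmul]

/-- PROOF. subset of `finite_eigen` with `c = -(1 + ℓ)`. -/
theorem ne_ℓ' (hp : p.Prime) (hℓ : ℓ.Prime) (hℓp : ℓ ≠ p) (hNE : NEAt p ℓ) :
    {x : JZero p | x ∈ torInf (JZero p) ℓ ∧ Tq p hℓ x + (1 + ℓ) • x = 0}.Finite := by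
  refine (finite_eigen hNE hℓ (not_dvd_of_ne hp hℓ hℓp) (-(1 + ℓ)) (Or.inr rfl)).subset ?_
  rintro x ⟨hx, hxT⟩
  refine ⟨isTors_of_mem_torInf hℓ hx, ?_⟩
  have : ((1 : ℤ) + (ℓ : ℤ)) = ((1 + ℓ : ℕ) : ℤ) := by push_cast; ring
  rw [neg_smul, this, natCast_zsmul]
  exact eq_neg_of_add_eq_zero_left hxT

end Fermat.Agent.S15.Atl
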