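import Fermat.Agent.S15.Atl.Defs

/-!
# S15-ATL: `heckeMulT` commutes with the Galois action on Laurent series
-/

set_option autoImplicit false

noncomputable section

open AlgebraicCurve ModularCurve Fermat.Agent.S17.FF

namespace Fermat.Agent.S15.Atl

open Fermat.Agent.GR Fermat.Agent.GR.S Fermat.Agent.GR.H Fermat.Agent.GR.I


theorem exists_primRoot (q : ℕ) [NeZero q] : ∃ ζ : Qbˣ, IsPrimitiveRoot ζ q := by
  obtain ⟨ζ, hζ⟩ := HasEnoughRootsOfUnity.exists_primitiveRoot Qb q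
  exact ⟨hζ.isUnit (NeZero.ne q) |>.unit, IsPrimitiveRoot.coe_units_iff.mp (by simpa using hζ)⟩

/-- PROOF. `gal σ = coeffMap σ`; `GR/F/Formal.lean : coeffMap_heckeMulT` gives
`gal σ (heckeMulT q ζ u) = heckeMulT q (Units.map σ ζ) (gal σ u)`; `Units.map σ ζ` is again a primitive
`q`-th root of unity (`GR.I.isPrimitiveRoot_map`), and `normT` does not depend on the choice of the
primitive root (`GR/F/FormalNorm.lean : normT_eq_of_isPrimitiveRoot`).  (The same computation is done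
inside `GR/I/Level.lean : act_heckeT`.) -/
theorem gal_heckeMulT (q : ℕ) [NeZero q] (ζ : Qbˣ) (hζ : IsPrimitiveRoot ζ q) (σ : GQ)
    (u : LaurentSeries Qb) : gal σ (heckeMulT q ζ u) = heckeMulT q ζ (gal σ u) := by
  have h1 : gal σ (heckeMulT q ζ u) =
      heckeMulT q (Units.map ((σ : Qb →+* Qb) : Qb →* Qb) ζ) (gal σ u) :=
    coeffMap_heckeMulT _ q ζ u
  rw [h1]
  unfold heckeMulT
  have h2 : IsPrimitiveRoot (Units.map ((σ : Qb →+* Qb) : Qb →* Qb) ζ) q := by
    rw [← IsPrimitiveRoot.coe_units_iff] at hζ ⊢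
    exact hζ.map_of_injective (f := (σ : Qb →+* Qb)) (RingHom.injective _)
  rw [normT_eq_of_isPrimitiveRoot q _ ζ h2 hζ]

end Fermat.Agent.S15.Atl
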