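import Fermat.Agent.S15.Atl.Gal1

/-!
# S15-ATL: `heckeDiv` commutes with Galois on principal divisors
-/

set_option autoImplicit false

noncomputable section

open AlgebraicCurve ModularCurve Fermat.Agent.S17.FF

namespace Fermat.Agent.S15.Atl

open Fermat.Agent.GR Fermat.Agent.GR.S Fermat.Agent.GR.H Fermat.Agent.GR.I

local notation "𝔽" => modularFunctionFieldBar

variable {N : ℕ} [NeZero N]


/-- PROOF. `smul_divf` (GR/S/FF/GalPull), `heckeDiv_divf` (GR/S/Hecke/Inputs): both sides are `divf` of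
elements of `𝔽 N`; these two elements are equal because their Laurent series are
(`norm_heckeBeta`, `coe_gq_smul`, `gal_heckeMulT`). -/
theorem heckeDiv_smul_divf (q : ℕ) [NeZero q] (hq : q.Prime) (hqN : ¬ q ∣ N) (σ : GQ) (f : 𝔽 N)
    (hf : f ≠ 0) :
    heckeDiv N q (gq N σ • divf (K := Qb) f) = gq N σ • heckeDiv N q (divf (K := Qb) f) := by
  obtain ⟨ζ, hζ⟩ := exists_primRoot q
  have hf' : gq N σ • f ≠ 0 := by
    intro h
    apply hf
    have h2 : gq N σ • f = gq N σ • (0 : 𝔽 N) := by rw [h, smul_zero]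
    exact MulAction.injective (gq N σ) h2
  rw [smul_divf, heckeDiv_divf N q _ hf', heckeDiv_divf N q _ hf, smul_divf]
  congr 1
  apply Subtype.ext
  rw [coe_gq_smul, norm_heckeBeta N q hq hqN ζ hζ, norm_heckeBeta N q hq hqN ζ hζ, coe_gq_smul,
    gal_heckeMulT q ζ hζ]

end Fermat.Agent.S15.Atl
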