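import Fermat.Agent.S15.Atl.Gal2

/-!
# S15-ATL: `heckeDiv` commutes with Galois on divisors of degree `0`
-/

set_option autoImplicit false

noncomputable section

open AlgebraicCurve ModularCurve Fermat.Agent.S17.FF

namespace Fermat.Agent.S15.Atl

open Fermat.Agent.GR Fermat.Agent.GR.S Fermat.Agent.GR.H Fermat.Agent.GR.I

local notation "𝔽" => modularFunctionFieldBar

variable {N : ℕ} [NeZero N]


variable (N) in
/-- the commutator of `heckeDiv` and `σ` on divisors. -/
def Gal3_c (q : ℕ) [NeZero q] (σ : GQ) : Divisor Qb (𝔽 N) →+ Divisor Qb (𝔽 N) :=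
  (heckeDiv N q).comp (DistribSMul.toAddMonoidHom (Divisor Qb (𝔽 N)) (gq N σ)) -
    (DistribSMul.toAddMonoidHom (Divisor Qb (𝔽 N)) (gq N σ)).comp (heckeDiv N q)

theorem Gal3_c_apply (q : ℕ) [NeZero q] (σ : GQ) (D : Divisor Qb (𝔽 N)) :
    Gal3_c N q σ D = heckeDiv N q (gq N σ • D) - gq N σ • heckeDiv N q D := rfl

/-- `heckeDiv` commutes with Galois on divisors of degree `0` (bounded homomorphism trick). -/
theorem heckeDiv_smul (q : ℕ) [NeZero q] (hq : q.Prime) (hqN : ¬ q ∣ N) (σ : GQ)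
    (D : Divisor Qb (𝔽 N)) (hD : Divisor.degree D = 0) :
    heckeDiv N q (gq N σ • D) = gq N σ • heckeDiv N q D := by
  have key : Gal3_c N q σ D = 0 := by
    refine eq_zero_of_bounded (Gal3_c N q σ)
      (fun f hf => ?_)
      (finrankAlong Qb (heckeBetaBar Qb N q) * 1 + finrankAlong Qb (heckeBetaBar Qb N q) * 1)
      (fun v => ?_) D hD
    · rw [Gal3_c_apply]
      exact sub_eq_zero.mpr (heckeDiv_smul_divf q hq hqN σ f hf)
    · rw [Gal3_c_apply]
      refine (l1_sub_le _ _).trans (Nat.add_le_add ?_ ?_)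
      · rw [SemilinearAut.smul_single]
        refine (l1_heckeDiv_le N q _).trans ?_
        rw [l1_single]; rfl
      · rw [SemilinearAut.divisor_smul_def]
        refine (l1_mapDomain_le _ _).trans ((l1_heckeDiv_le N q _).trans ?_)
        rw [l1_single]; rfl
  rw [Gal3_c_apply] at key
  exact sub_eq_zero.mp key

end Fermat.Agent.S15.Atl
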