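import Fermat.Agent.S15.Atl.Defs

/-!
# S15-ATL: Kummer functions of torsion classes, 1
-/

set_option autoImplicit false

noncomputable section

open AlgebraicCurve ModularCurve Fermat.Agent.S17.FF

namespace Fermat.Agent.S15.Atl

open Fermat.Agent.GR Fermat.Agent.GR.S Fermat.Agent.GR.H Fermat.Agent.GR.I

local notation "𝔽" => modularFunctionFieldBar

variable {N : ℕ} [NeZero N] {n : ℕ} {x y x' : JZero N} {u v u' : LaurentSeries Qb}


theorem Kum1_transport {E E' : IntermediateField Qb (LaurentSeries Qb)} (h : E = E') (n : ℕ)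
    (u : LaurentSeries Qb)
    (H : ∃ hu : u ∈ E, ∀ v : Place Qb E, (n : ℤ) ∣ v.ord (⟨u, hu⟩ : E)) :
    ∃ hu : u ∈ E', ∀ v : Place Qb E', (n : ℤ) ∣ v.ord (⟨u, hu⟩ : E') := by
  subst h
  exact H

/-- PROOF. `bar_eq_FF N : 𝔽 N = FF Qb N` (GR/S/Bridge); `v.ord u = (divf u) v = n * D v`
(`divf_apply`).  Transport along `bar_eq_FF` as in GR/S/K1.lean (`bar_eq_FF N ▸ _`), or `subst`-free:
prove the statement for every intermediate field `E` with `E = FF Qb N`. -/
theorem IsKumOf.isKummer (h : IsKumOf N n x u) : IsKummer (N := N) n u := by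
  obtain ⟨hu, D, hu0, hD, -⟩ := h
  refine ⟨hu0, Kum1_transport (bar_eq_FF N) n u ⟨hu, fun v => ?_⟩⟩
  have h1 : v.ord (⟨u, hu⟩ : 𝔽 N) = (n • (D : Divisor Qb (𝔽 N))) v := by
    rw [← hD, divf_apply]
  rw [h1, Finsupp.smul_apply, nsmul_eq_mul]
  exact dvd_mul_right _ _

/-- PROOF. `x = Pic0.mk D` (`Pic0.mk_surjective`), `Pic0.mk (n • D) = 0`, so `n • D` is principal
(`QuotientAddGroup.eq_zero_iff`, as in `GR.S.eq_zero_of_mem_K1`): `n • D = divf u`. -/
theorem exists_isKumOf (hx : n • x = 0) : ∃ u, IsKumOf N n x u := by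
  obtain ⟨D, rfl⟩ := Pic0.mk_surjective x
  have h1 : Pic0.mk (n • D) = 0 := hx
  have h2 : ((n • D : Divisor.degZero (K := Qb) (F := 𝔽 N)) : Divisor Qb (𝔽 N)) ∈
      Divisor.principal (K := Qb) (F := 𝔽 N) := by
    have := (QuotientAddGroup.eq_zero_iff _).mp h1
    exact this
  obtain ⟨u, hu, hDu⟩ := h2
  refine ⟨(u : LaurentSeries Qb), u.2, D, fun h => hu (Subtype.ext h), ?_, rfl⟩
  ext v
  rw [divf_apply, ← hDu]
  rfl

end Fermat.Agent.S15.Atl
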