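import Fermat.Agent.S15.Atl.Dict

/-!
# S15-ATL: identities in the Hecke algebra of cusp forms hold on the torsion of `J₀(N)`
-/

set_option autoImplicit false

noncomputable section

open AlgebraicCurve ModularCurve Polynomial

namespace Fermat.Agent.S15.Atl

open Fermat.Agent.GR Fermat.Agent.GR.S Fermat.Agent.GR.H Fermat.Agent.GR.I

variable {N : ℕ} [NeZero N] {n : ℕ} {x : JZero N} {a : (kd N).Λ}

/-- PROOF. `Polynomial.induction_on'` (sums: `IsLift.add`; monomials `c X^k`: induction on `k` with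
`IsLift.hecke`, then `IsLift.zsmul`).  `aeval_monomial`, `Module.End.mul_apply`, `pow_succ'`. -/
theorem IsLift.aeval (hn : 0 < n) {q : ℕ} (hq : q.Prime) (hqN : ¬ q ∣ N) (R : ℤ[X])
    (h : IsLift N n x a) :
    IsLift N n (aeval (Tq N hq) R x) (aeval ((kd N).hecke (HeckeFull.T hq hqN)) R a) := by
  have hpow : ∀ k : ℕ, IsLift N n ((Tq N hq ^ k) x) (((kd N).hecke (HeckeFull.T hq hqN) ^ k) a) := by
    intro k
    induction k with
    | zero => simpa using h
    | succ k ih =>
      rw [pow_succ', pow_succ', Module.End.mul_apply, Module.End.mul_apply]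
      exact ih.hecke hn hq hqN
  induction R using Polynomial.induction_on' with
  | add P Q hP hQ =>
    rw [map_add, map_add, LinearMap.add_apply, LinearMap.add_apply]
    exact hP.add hn hQ
  | monomial k c =>
    rw [aeval_monomial, aeval_monomial, Module.End.mul_apply, Module.End.mul_apply,
      Module.algebraMap_end_apply, Module.algebraMap_end_apply]
    exact (hpow k).zsmul hn c

/-- **Transfer.**  PROOF. `n • x = 0`, `exists_isLift`, `IsLift.aeval`;
`aeval (hecke T) R = hecke (aeval T R) = 0` (`Polynomial.aeval_algHom_apply` for the ring hom `hecke`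
seen as a `ℤ`-algebra hom: `RingHom.toIntAlgHom`; or `Polynomial.hom_eval₂`), so the lift is `0`;
conclude with `isLift_zero` and `IsLift.eq`. -/
theorem aeval_Tq_eq_zero {q : ℕ} (hq : q.Prime) (hqN : ¬ q ∣ N) (R : ℤ[X])
    (hR : aeval (HeckeFull.T hq hqN : HeckeFull N) R = 0) (hx : IsTors x) :
    aeval (Tq N hq) R x = 0 := by
  obtain ⟨n, hn, hx⟩ := hx
  obtain ⟨a, ha⟩ := exists_isLift hn hx
  have h1 := ha.aeval hn hq hqN R
  have h2 : aeval ((kd N).hecke (HeckeFull.T hq hqN)) R = 0 := by
    have h3 := Polynomial.aeval_algHom_apply ((kd N).hecke.toIntAlgHom)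
      (HeckeFull.T hq hqN : HeckeFull N) R
    rw [hR, map_zero] at h3
    exact h3
  rw [h2, LinearMap.zero_apply] at h1
  exact h1.eq hn (isLift_zero hn)

/-- PROOF. lift `x` to `a`; both sides lift to `hecke (T_q) (hecke (T_q') a)` resp. the other order;
these are equal since `hecke` is a ring hom from a commutative ring (`mul_comm`, `map_mul`,
`Module.End.mul_apply`); `IsLift.eq`. -/
theorem Tq_comm {q q' : ℕ} (hq : q.Prime) (hqN : ¬ q ∣ N) (hq' : q'.Prime) (hq'N : ¬ q' ∣ N)
    (hx : IsTors x) : Tq N hq (Tq N hq' x) = Tq N hq' (Tq N hq x) := by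
  obtain ⟨n, hn, hx⟩ := hx
  obtain ⟨a, ha⟩ := exists_isLift hn hx
  have h1 := (ha.hecke hn hq' hq'N).hecke hn hq hqN
  have h2 := (ha.hecke hn hq hqN).hecke hn hq' hq'N
  have h3 : (kd N).hecke (HeckeFull.T hq hqN) ((kd N).hecke (HeckeFull.T hq' hq'N) a) =
      (kd N).hecke (HeckeFull.T hq' hq'N) ((kd N).hecke (HeckeFull.T hq hqN) a) := by
    rw [← Module.End.mul_apply, ← Module.End.mul_apply, ← map_mul, ← map_mul, mul_comm]
  rw [h3] at h1
  exact h1.eq hn h2

theorem IsTors.map {J J' : Type*} [AddCommGroup J] [AddCommGroup J'] {x : J} (hx : IsTors x)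
    (f : J →+ J') : IsTors (f x) := by
  obtain ⟨n, hn, h⟩ := hx
  exact ⟨n, hn, by rw [← map_nsmul, h, map_zero]⟩

theorem IsTors.end_apply (hx : IsTors x) (T : Module.End ℤ (JZero N)) : IsTors (T x) :=
  hx.map T.toAddMonoidHom

theorem IsTors.smul (hx : IsTors x) (σ : GQ) : IsTors (σ • x) :=
  hx.map (DistribSMul.toAddMonoidHom (JZero N) σ)

/-- PROOF. `Algebra.adjoin_induction` on `hT`, generalizing `x` (generators: `Tq_comm`; products need
`IsTors.end_apply`). -/
theorem Hk_Tq_comm {T : Module.End ℤ (JZero N)} (hT : T ∈ Hk N) {q : ℕ} (hq : q.Prime)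
    (hqN : ¬ q ∣ N) (hx : IsTors x) : T (Tq N hq x) = Tq N hq (T x) := by
  induction hT using Algebra.adjoin_induction generalizing x with
  | mem T hT =>
    obtain ⟨q', hq', hq'N, rfl⟩ := hT
    exact Tq_comm hq' hq'N hq hqN hx
  | algebraMap n =>
    rw [Module.algebraMap_end_apply, Module.algebraMap_end_apply, map_zsmul]
  | add T T' _ _ h h' =>
    rw [LinearMap.add_apply, LinearMap.add_apply, h hx, h' hx, map_add]
  | mul T T' _ _ h h' =>
    rw [Module.End.mul_apply, Module.End.mul_apply, h' hx, h (hx.end_apply T')]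

end Fermat.Agent.S15.Atl
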